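/-
S56 / EC / BASE / (A4), leaf LOC-1 : an equivariant map which is bijective on `p`-torsion preserves
`cntT` (Mathlib + Base/{Exact,SumKer}).
HINT: `SumKer.cntT_eq` (cntT p P g = cnt P (SumKer.res p g)) on both sides, then `cnt_congr` with the
`AddEquiv.ofBijective` of the restriction of `Λ` to the kernels of `p`.
-/
import Fermat.Agent.S56.EC.Base.SumKer

set_option autoImplicit false

namespace Fermat.Agent.S56.EC.Base.Loc

open Polynomial

/-- An equivariant map which is bijective on `p`-torsion preserves `cntT`. -/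
theorem cntT_eq_of_tors_bij {M M' : Type*} [AddCommGroup M] [AddCommGroup M'] (Λ : M →+ M')
    {g : M →+ M} {g' : M' →+ M'} (hc : ∀ x, Λ (g x) = g' (Λ x)) (p : ℕ)
    (hinj : ∀ x, p • x = 0 → Λ x = 0 → x = 0)
    (hsurj : ∀ y, p • y = 0 → ∃ x, p • x = 0 ∧ Λ x = y) (P : ℤ[X]) :
    cntT p P g = cntT p P g' := by
  let f : (nsmulAddMonoidHom (α := M) p).ker →+ (nsmulAddMonoidHom (α := M') p).ker :=
    (Λ.comp (AddSubgroup.subtype _)).codRestrict _ (fun x => by
      have hx := (SumKer.mem_ker_iff p (x : M)).1 x.2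
      rw [SumKer.mem_ker_iff, AddMonoidHom.comp_apply, AddSubgroup.subtype_apply, ← map_nsmul, hx,
        map_zero])
  have hf : ∀ x, ((f x : _) : M') = Λ x := fun _ => rfl
  have hbij : Function.Bijective f := by
    constructor
    · rw [injective_iff_map_eq_zero]
      intro x hx
      apply Subtype.ext
      refine hinj x ((SumKer.mem_ker_iff p _).1 x.2) ?_
      rw [← hf, hx]
      rfl
    · intro y
      obtain ⟨x, hx, hxy⟩ := hsurj y ((SumKer.mem_ker_iff p _).1 y.2)
      exact ⟨⟨x, (SumKer.mem_ker_iff p x).2 hx⟩, Subtype.ext hxy⟩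
  rw [SumKer.cntT_eq, SumKer.cntT_eq]
  refine cnt_congr (AddEquiv.ofBijective f hbij) (fun v => ?_) P
  apply Subtype.ext
  exact hc v

end Fermat.Agent.S56.EC.Base.Loc
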