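/-
S56 / EC / BASE / (A4), leaf LOC-2 : `Map(Y, T)[p] = Map(Y, 𝔽_p)` equivariantly if `T[p]` has order
`p` (Mathlib + Base/{Exact,Perm}).
HINT: as in `cntT_id_eq` (Base/Perm.lean): `e : ZMod p ≃+ T[p]` from `isAddCyclic_of_prime_card`;
`cntT_eq_cnt` with `j : (Y → ZMod p) →+ (Y → T)`, `j f = fun y => (e (f y) : T)`.
-/
import Fermat.Agent.S56.EC.Base.Perm

set_option autoImplicit false

namespace Fermat.Agent.S56.EC.Base.Loc

open Polynomial

/-- `Map(Y, T)[p] = Map(Y, 𝔽_p)` if `T[p]` has order `p`. -/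
theorem cntT_perm_eq {T : Type*} [AddCommGroup T] {p : ℕ} (hp : p.Prime)
    (hT : Nat.card (nsmulAddMonoidHom (α := T) p).ker = p) {Y : Type*} (τ : Y → Y) (P : ℤ[X]) :
    cntT p P (perm τ T) = cnt P (perm τ (ZMod p)) := by
  have : Fact p.Prime := ⟨hp⟩
  have hcyc : IsAddCyclic (nsmulAddMonoidHom (α := T) p).ker := isAddCyclic_of_prime_card hT
  let e : ZMod p ≃+ (nsmulAddMonoidHom (α := T) p).ker :=
    (ZMod.ringEquivCongr hT.symm).toAddEquiv.trans (zmodAddCyclicAddEquiv hcyc)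
  let j0 : ZMod p →+ T := (nsmulAddMonoidHom (α := T) p).ker.subtype.comp e.toAddMonoidHom
  have hj0 : Function.Injective j0 := Subtype.val_injective.comp e.injective
  refine cntT_eq_cnt (AddMonoidHom.compLeft j0 Y) ?_ (fun _ => rfl) p ?_ P
  · intro f g hfg
    funext y
    exact hj0 (congrFun hfg y)
  · intro x
    constructor
    · intro hx
      have hxy : ∀ y, x y ∈ (nsmulAddMonoidHom (α := T) p).ker := fun y => congrFun hx y
      refine ⟨fun y => e.symm ⟨x y, hxy y⟩, funext fun y => ?_⟩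
      change ((e (e.symm ⟨x y, hxy y⟩) : (nsmulAddMonoidHom (α := T) p).ker) : T) = x y
      rw [AddEquiv.apply_symm_apply]
    · rintro ⟨w, rfl⟩
      funext y
      exact (e (w y)).2

end Fermat.Agent.S56.EC.Base.Loc
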