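/-
S56 / block EC / BASE CASE / (A4) the local part (sub-architect helper134).  DEFINITIONS.

`X` a finite `GQ`-set, `q` a prime, `ω` a local orbit (`ω : LocOrb q X`).
* `orbSum q X ω`  : `Res_q Map(X, K) → K_q`, `F ↦ ∑_{x ∈ ω} F x`  (equivariant for `G_q`)
* `locInv L X`    : `H²_q(K_X) → Map(LocOrb q X, ℚ/ℤ)`, `y ↦ (ω ↦ inv_q ((orbSum ω)_* y))`
-/
import Fermat.Agent.S56.EC.Base.CohDefs
import Fermat.Agent.S55.Units.T1.LocalDecomp

set_option autoImplicit false

namespace Fermat.Agent.S56.EC.Base.Loc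

open Fermat.Agent.S55 Polynomial

variable (q : Nat.Primes) (X : Type) [MulAction GQ X] [Finite X]

instance finite_orbit (ω : LocOrb q X) : Finite ω.orbit :=
  (isPartition_orbits (G := Gv q) (ResSet (ιv q) X)).finite_piece ω

instance finite_locOrb : Finite (LocOrb q X) := Quotient.finite _

/-- `F ↦ ∑_{x ∈ ω} F x`. -/
noncomputable def orbSum (ω : LocOrb q X) : ResMod (ιv q) (IndMod X Kx) →+[Gv q] KL q :=
  (IndMod.sum ω.orbit (KL q)).comp
    ((IndMod.pull (KL q) (orbitIncl ω)).comp (IndMod.toResSet (ιv q) X Kx))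

variable {q}

/-- `y ↦ (ω ↦ inv_q ((orbSum ω)_* y))`. -/
noncomputable def locInv {p : ℕ} (L : LocPkg p q) : Hloc q (IndMod X Kx) 2 →+ (LocOrb q X → QZ) where
  toFun y ω := L.inv (Hsm.map (orbSum q X ω) 2 y)
  map_zero' := by
    funext ω
    simp
  map_add' y y' := by
    funext ω
    simp

theorem locInv_apply {p : ℕ} (L : LocPkg p q) (y : Hloc q (IndMod X Kx) 2) (ω : LocOrb q X) :
    locInv X L y ω = L.inv (Hsm.map (orbSum q X ω) 2 y) := rfl

/-- `locInv` in terms of the S55 orbit decomposition. -/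
theorem locInv_eq {p : ℕ} (L : LocPkg p q) (y : Hloc q (IndMod X Kx) 2) (ω : LocOrb q X) :
    locInv X L y ω = invY q ω.orbit L.inv (locDecomp q X 2 ω y) := by
  rw [locInv_apply]
  unfold orbSum invY locDecomp
  rw [Hsm.map_comp, Hsm.map_comp]
  rfl

end Fermat.Agent.S56.EC.Base.Loc
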