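/-
S56 / EC / BASE / (A4), leaf LOC-3 : `locInv` intertwines `locOp q ρ 2` and `perm (tauLoc q ρ)`.
HINT for `orbSum_pull`: unfold `orbSum`; both sides are `∑ᶠ` over the orbits (`IndMod.sum_def` /
`IndMod.sum_eq_sum`); reindex by the bijection `ω.orbit ≃ (tauLoc q ρ ω).orbit`, `x ↦ ρ x`
(`finsum_comp_equiv`): well defined and surjective because `ρ` is `G_q`-equivariant
(take `ω = Quotient.mk'' x₀`: `x' = h • ρ x₀ = ρ (h • x₀)`), injective by `hρ`.
-/
import Fermat.Agent.S56.EC.Base.Loc.Defs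

set_option autoImplicit false

namespace Fermat.Agent.S56.EC.Base.Loc

open Fermat.Agent.S55 Polynomial

variable {q : Nat.Primes} {X : Type} [MulAction GQ X] [Finite X]

/-- an injective equivariant map induces a bijection from an orbit onto the image orbit -/
theorem Equiv_exists_orbit_equiv {H Y : Type} [Group H] [MulAction H Y] (u : Y →[H] Y)
    (hu : Function.Injective u) (ω : MulAction.orbitRel.Quotient H Y) :
    ∃ e : ω.orbit ≃ (orbMap u ω).orbit, ∀ x, ((e x : (orbMap u ω).orbit) : Y) = u x.1 := by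
  have hmem : ∀ x : ω.orbit, u x.1 ∈ (orbMap u ω).orbit := fun x => by
    rw [MulAction.orbitRel.Quotient.mem_orbit]
    exact congrArg (orbMap u) (MulAction.orbitRel.Quotient.mem_orbit.1 x.2)
  refine ⟨Equiv.ofBijective (fun x => ⟨u x.1, hmem x⟩) ⟨fun x x' h => ?_, ?_⟩, fun _ => rfl⟩
  · exact Subtype.ext (hu (congrArg Subtype.val h))
  · rintro ⟨y, hy⟩
    induction ω using Quotient.inductionOn' with
    | h x₀ =>
      rw [MulAction.orbitRel.Quotient.mem_orbit, orbMap_mk] at hy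
      obtain ⟨h, hh⟩ : y ∈ MulAction.orbit H (u x₀) := MulAction.orbitRel_apply.1 (Quotient.eq''.1 hy)
      refine ⟨⟨h • x₀, MulAction.orbitRel.Quotient.mem_orbit.2
        (Quotient.sound' (MulAction.orbitRel_apply.2 ⟨h, rfl⟩))⟩, Subtype.ext ?_⟩
      show u (h • x₀) = y
      rw [map_smul]
      exact hh

/-- `∑_{x ∈ ω} F (ρ x) = ∑_{x ∈ ρ ω} F x`. -/
theorem orbSum_pull (ρ : X →[GQ] X) (hρ : Function.Injective ρ) (ω : LocOrb q X)
    (F : ResMod (ιv q) (IndMod X Kx)) :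
    orbSum q X ω (ResMod.map (ιv q) (IndMod.pull Kx ρ) F) = orbSum q X (tauLoc q ρ ω) F := by
  have hinj : Function.Injective (ResSet.map (ιv q) ρ) := fun x y h =>
    ResSet.ext (hρ (congrArg ResSet.val h))
  obtain ⟨e, he⟩ := Equiv_exists_orbit_equiv (ResSet.map (ιv q) ρ) hinj ω
  let g : ResSet (ιv q) X → KL q := fun y =>
    ResMod.toRes (ιv q) (((ResMod.toRes (ιv q)).symm F) y.val)
  have h1 : orbSum q X ω (ResMod.map (ιv q) (IndMod.pull Kx ρ) F) =
      ∑ᶠ x : ω.orbit, g (ResSet.map (ιv q) ρ x.1) := rfl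
  have h2 : orbSum q X (tauLoc q ρ ω) F = ∑ᶠ x : (tauLoc q ρ ω).orbit, g x.1 := rfl
  rw [h1, h2]
  have h3 := finsum_comp_equiv e (f := fun x : (orbMap (ResSet.map (ιv q) ρ) ω).orbit => g x.1)
  rw [← show (∑ᶠ x : (orbMap (ResSet.map (ιv q) ρ) ω).orbit, g x.1) =
    ∑ᶠ x : (tauLoc q ρ ω).orbit, g x.1 from rfl, ← h3]
  exact finsum_congr fun x => by rw [he]

/-- `locInv` intertwines `locOp q ρ 2` and `perm (tauLoc q ρ)`. -/
theorem locInv_locOp {p : ℕ} (L : LocPkg p q) (ρ : X →[GQ] X) (hρ : Function.Injective ρ)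
    (y : Hloc q (IndMod X Kx) 2) :
    locInv X L (locOp q ρ 2 y) = perm (tauLoc q ρ) QZ (locInv X L y) := by
  funext ω
  rw [perm_apply, locInv_apply, locInv_apply]
  unfold locOp
  rw [← Hsm.map_comp]
  exact congrArg L.inv (DFunLike.congr_fun (Hsm.map_congr (fun F => orbSum_pull ρ hρ ω F) 2) y)

end Fermat.Agent.S56.EC.Base.Loc
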