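/-
S56 / EC / BASE / (A4), leaf LOC-4 : `locInv` is injective on `p`-torsion.
HINT: `locInv_eq` + `locDecomp_bijective q X 2` (injectivity: enough that every component
`locDecomp q X 2 ω y` vanishes) + `L.L3inj ω.orbit` (the component is `p`-primary: `⟨1, _⟩`; instances
`instSmoothSetOrbit`, pretransitivity of an orbit as in S55 `card_local_ker`, Units/T1/LocalCount.lean).
-/
import Fermat.Agent.S56.EC.Base.Loc.Defs

set_option autoImplicit false

namespace Fermat.Agent.S56.EC.Base.Loc

open Fermat.Agent.S55 Polynomial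

variable {q : Nat.Primes} {X : Type} [MulAction GQ X] [Finite X] {p : ℕ}

theorem locInv_inj [SmoothSet lvlAll X] (L : LocPkg p q) (y : Hloc q (IndMod X Kx) 2)
    (hy : p • y = 0) (h : locInv X L y = 0) : y = 0 := by
  apply (locDecomp_bijective q X 2).1
  funext ω
  have h1 : invY q ω.orbit L.inv (locDecomp q X 2 ω y) = 0 := by
    rw [← locInv_eq, h]
    rfl
  have h2 : locDecomp q X 2 ω y ∈ pPrimary p (HKY q ω.orbit 2) :=
    ⟨1, by rw [pow_one, ← map_nsmul, hy, map_zero]⟩
  have h3 := L.L3inj ω.orbit _ h2 h1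
  simp only [h3, map_zero]

end Fermat.Agent.S56.EC.Base.Loc
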