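/-
S56 / EC / BASE / (A4), leaf LOC-6 : naturality of `locE`, `invX` and the order of `locOp`.
-/
import Fermat.Agent.S56.EC.Base.Loc.Defs
import Fermat.Agent.S55.Coh.ResApi

set_option autoImplicit false

namespace Fermat.Agent.S56.EC.Base.Loc

open Fermat.Agent.S55 Polynomial

/-- If `φ^m = 1` on the module then `(φ_*)^m = 1` on cohomology. -/
theorem hsm_map_iterate {G : Type} [Group G] {𝓝 : LevelSys G} {A : Type} [AddCommGroup A]
    [DistribMulAction G A] (φ : A →+[G] A) {m : ℕ} (hφ : ∀ a, φ^[m] a = a) (n : ℕ)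
    (y : Hsm 𝓝 A n) : (Hsm.map (𝓝 := 𝓝) φ n)^[m] y = y := by
  have key : ∀ k : ℕ, ∃ ψ : A →+[G] A, (∀ a, ψ a = φ^[k] a) ∧
      ∀ y : Hsm 𝓝 A n, (Hsm.map (𝓝 := 𝓝) φ n)^[k] y = Hsm.map ψ n y := by
    intro k
    induction k with
    | zero => exact ⟨DistribMulActionHom.id G, fun _ => rfl, fun y => (Hsm.map_id n y).symm⟩
    | succ k ih =>
      obtain ⟨ψ, h1, h2⟩ := ih
      refine ⟨φ.comp ψ, fun a => ?_, fun y => ?_⟩
      · rw [Function.iterate_succ_apply', ← h1]
        rfl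
      · rw [Function.iterate_succ_apply', h2, Hsm.map_comp]
  obtain ⟨ψ, h1, h2⟩ := key m
  rw [h2]
  exact Hsm.map_id' (fun a => by rw [h1, hφ]) n y

variable {X : Type} [MulAction GQ X]

/-- `locE` intertwines the operators induced by `ρ`. -/
theorem locE_pull (S : Finset Nat.Primes) (q : Nat.Primes) (ρ : X →[GQ] X) (n : ℕ)
    (x : Hsm (lvlS S) (IndMod X (ESx S)) n) :
    locE S X q n (Hsm.map (IndMod.pull (ESx S) ρ) n x) = locOp q ρ n (locE S X q n x) := by
  unfold locE locOp locS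
  rw [AddMonoidHom.comp_apply, AddMonoidHom.comp_apply, Hsm.res_map, ← Hsm.map_comp,
    ← Hsm.map_comp]
  exact DFunLike.congr_fun (Hsm.map_congr (fun _ => rfl) n) _

/-- `ρ^m = 1` implies `(locOp q ρ n)^m = 1`. -/
theorem locOp_iterate (q : Nat.Primes) (ρ : X →[GQ] X) {m : ℕ} (hρ : ∀ x, ρ^[m] x = x) (n : ℕ)
    (y : Hloc q (IndMod X Kx) n) : (locOp q ρ n)^[m] y = y := by
  refine hsm_map_iterate _ (fun F => ?_) n y
  have key : ∀ (k : ℕ) (F : ResMod (ιv q) (IndMod X Kx)) (x : X),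
      ((ResMod.toRes (ιv q)).symm ((ResMod.map (ιv q) (IndMod.pull Kx ρ))^[k] F)) x =
        ((ResMod.toRes (ιv q)).symm F) (ρ^[k] x) := by
    intro k
    induction k with
    | zero => intro F x; rfl
    | succ k ih =>
      intro F x
      rw [Function.iterate_succ_apply, ih, Function.iterate_succ_apply']
      rfl
  apply (ResMod.toRes (ιv q)).symm.injective
  ext x
  rw [key, hρ]

/-- The sum of the invariants does not see `ρ`. -/
theorem invX_locOp [Finite X] {p : ℕ} {q : Nat.Primes} (L : LocPkg p q) (ρ : X →[GQ] X)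
    (hρ : Function.Bijective ρ) (y : Hloc q (IndMod X Kx) 2) :
    invX L X (locOp q ρ 2 y) = invX L X y := by
  unfold invX locOp
  rw [AddMonoidHom.comp_apply, AddMonoidHom.comp_apply, ← Hsm.map_comp]
  refine congrArg L.inv (DFunLike.congr_fun (Hsm.map_congr (fun F => ?_) 2) y)
  change ∑ᶠ x : X, ((ResMod.toRes (ιv q)).symm F) (ρ x) = ∑ᶠ x : X, ((ResMod.toRes (ιv q)).symm F) x
  exact finsum_comp_equiv (Equiv.ofBijective ρ hρ) (f := fun x => ((ResMod.toRes (ιv q)).symm F) x)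

end Fermat.Agent.S56.EC.Base.Loc
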