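/-
S56 / EC / BASE / (A4), leaf LOC-5 : `locInv` is surjective on `p`-torsion; its sum is `invX`.
HINT: for each `ω` choose by `L.L3surj ω.orbit` a `p`-primary `v ω` with `invY .. (v ω) = t ω`;
`p • v ω = 0` by `L.L3inj` (as in S55 `card_ker_sum_inv`, Units/T1/SumInv.lean); glue by the
surjectivity in `locDecomp_bijective q X 2`; `p • y = 0` by its injectivity; `locInv_eq`.
-/
import Fermat.Agent.S56.EC.Base.Loc.Defs

set_option autoImplicit false

namespace Fermat.Agent.S56.EC.Base.Loc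

open Fermat.Agent.S55 Polynomial

variable {q : Nat.Primes} {X : Type} [MulAction GQ X] [Finite X] {p : ℕ}

theorem locInv_surj [SmoothSet lvlAll X] (L : LocPkg p q) (t : LocOrb q X → QZ)
    (ht : p • t = 0) : ∃ y : Hloc q (IndMod X Kx) 2, p • y = 0 ∧ locInv X L y = t := by
  have htω : ∀ ω, p • t ω = 0 := fun ω => congrFun ht ω
  have hex : ∀ ω : LocOrb q X, ∃ v : HKY q ω.orbit 2, p • v = 0 ∧
      invY q ω.orbit L.inv v = t ω := by
    intro ω
    have : Nonempty ω.orbit := (MulAction.orbitRel.Quotient.nonempty_orbit ω).to_subtype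
    obtain ⟨v, hv, hfv⟩ := L.L3surj ω.orbit (t ω) ⟨1, by rw [pow_one]; exact htω ω⟩
    refine ⟨v, ?_, hfv⟩
    apply L.L3inj ω.orbit _ ((pPrimary p (HKY q ω.orbit 2)).nsmul_mem hv p)
    rw [map_nsmul, hfv]
    exact htω ω
  choose v hv1 hv2 using hex
  obtain ⟨y, hy⟩ := (locDecomp_bijective q X 2).2 v
  have hyω : ∀ ω, locDecomp q X 2 ω y = v ω := fun ω => congrFun hy ω
  refine ⟨y, ?_, ?_⟩
  · apply (locDecomp_bijective q X 2).1
    funext ω
    change locDecomp q X 2 ω (p • y) = locDecomp q X 2 ω 0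
    rw [map_nsmul, hyω, hv1, map_zero]
  · funext ω
    rw [locInv_eq, hyω, hv2]

theorem invX_eq_sum_locInv [Fintype (LocOrb q X)] (L : LocPkg p q)
    (y : Hloc q (IndMod X Kx) 2) : invX L X y = ∑ ω, locInv X L y ω := by
  rw [invX_eq_sum]
  exact Finset.sum_congr rfl fun ω _ => (locInv_eq X L y ω).symm

end Fermat.Agent.S56.EC.Base.Loc
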