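/-
S56 / EC / BASE / (A4) : THE EXPORT `cntT_H2E` :
`#π H²_S(E_X)[p] · #π 𝔽_p = ∏_{q ∈ S} #π 𝔽_p[G_q \ X]`  (sub-architect helper134).
-/
import Fermat.Agent.S56.EC.Base.Loc.AbsBij
import Fermat.Agent.S56.EC.Base.Loc.AbsPerm
import Fermat.Agent.S56.EC.Base.Loc.Nat
import Fermat.Agent.S56.EC.Base.Loc.Equiv
import Fermat.Agent.S56.EC.Base.Loc.Inj
import Fermat.Agent.S56.EC.Base.Loc.Surj
import Fermat.Agent.S55.Units.T1.AbsCount

set_option autoImplicit false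

namespace Fermat.Agent.S56.EC.Base

open Fermat.Agent.S55 Polynomial

theorem Loc.bijective_of_iterate {X : Type} {ρ : X → X} {m : ℕ} (hm : 0 < m)
    (hρ : ∀ x, ρ^[m] x = x) : Function.Bijective ρ := by
  obtain ⟨k, rfl⟩ : ∃ k, m = k + 1 := ⟨m - 1, by omega⟩
  refine ⟨fun a b h => ?_, fun x => ⟨ρ^[k] x, ?_⟩⟩
  · rw [← hρ a, ← hρ b, Function.iterate_succ_apply, Function.iterate_succ_apply, h]
  · rw [← Function.iterate_succ_apply' ρ k x]
    exact hρ x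

/-- The local count: `#π H²_q(K_X)[p] = #π 𝔽_p[G_q \ X]`. -/
theorem Loc.cntT_locOp {p : ℕ} (hp : p.Prime) {q : Nat.Primes} (L : LocPkg p q) {X : Type}
    [MulAction GQ X] [Finite X] [SmoothSet lvlAll X] (ρ : X →[GQ] X) (hρ : Function.Injective ρ)
    (P : ℤ[X]) : cntT p P (locOp q ρ 2) = cnt P (perm (tauLoc q ρ) (ZMod p)) := by
  rw [← Loc.cntT_perm_eq hp (torsCard_QZ p hp.pos) (tauLoc q ρ) P]
  exact Loc.cntT_eq_of_tors_bij (Loc.locInv X L) (Loc.locInv_locOp L ρ hρ) p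
    (Loc.locInv_inj L) (Loc.locInv_surj L) P

/-- `H²_q(K_X)[p]` is finite. -/
theorem Loc.finite_tors {p : ℕ} (hp : p.Prime) {q : Nat.Primes} (L : LocPkg p q) {X : Type}
    [MulAction GQ X] [Finite X] [SmoothSet lvlAll X] :
    Finite (nsmulAddMonoidHom (α := Hloc q (IndMod X Kx) 2) p).ker := by
  have hT : Finite (nsmulAddMonoidHom (α := QZ) p).ker :=
    Nat.finite_of_card_ne_zero (by
      have := torsCard_QZ p hp.pos
      unfold torsCard at this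
      rw [this]
      exact hp.ne_zero)
  let f : (nsmulAddMonoidHom (α := Hloc q (IndMod X Kx) 2) p).ker →
      (LocOrb q X → (nsmulAddMonoidHom (α := QZ) p).ker) := fun y ω =>
    ⟨Loc.locInv X L y.1 ω, by
      have hy : p • y.1 = 0 := y.2
      show p • Loc.locInv X L y.1 ω = 0
      rw [← Pi.smul_apply, ← map_nsmul, hy, map_zero]
      rfl⟩
  refine Finite.of_injective f fun y y' h => Subtype.ext ?_
  have hy : p • y.1 = 0 := y.2
  have hy' : p • y'.1 = 0 := y'.2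
  have h1 : Loc.locInv X L (y.1 - y'.1) = 0 := by
    rw [map_sub, sub_eq_zero]
    funext ω
    exact congrArg Subtype.val (congrFun h ω)
  exact sub_eq_zero.1 (Loc.locInv_inj L _ (by rw [smul_sub, hy, hy', sub_zero]) h1)

/-- **(A4)** `#π H²_S(E_X)[p] · #π 𝔽_p = ∏_{q ∈ S} #π 𝔽_p[G_q \ X]`. -/
theorem Loc.cntT_H2E {S : Finset Nat.Primes} {p m : ℕ} [Fact p.Prime] (L : ∀ q, LocPkg p q)
    {X : Type} [MulAction GQ X] [Finite X] [Nonempty X] [SmoothSet lvlAll X] (hS : S.Nonempty)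
    (h4 : U4Tors S L X)
    (ρ : X →[GQ] X) (hρ : ∀ x, ρ^[m] x = x) (hm : 0 < m) {P : ℤ[X]} (hP : IsIdemPoly p m P) :
    cntT p P (Hsm.map (𝓝 := lvlS S) (IndMod.pull (ESx S) ρ) 2) *
        cnt P (AddMonoidHom.id (ZMod p)) =
      ∏ q : ↥S, cnt P (perm (tauLoc q.1 ρ) (ZMod p)) := by
  classical
  have hp : p.Prime := Fact.out
  have hbij := Loc.bijective_of_iterate hm hρ
  rw [← cntT_id_eq hp (torsCard_QZ p hp.pos) P]
  have hprod : ∏ q : ↥S, cnt P (perm (tauLoc q.1 ρ) (ZMod p)) =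
      ∏ q : ↥S, cntT p P (locOp q.1 ρ 2) :=
    Finset.prod_congr rfl fun q _ => (Loc.cntT_locOp hp (L q.1) ρ hbij.1 P).symm
  rw [hprod]
  refine cntT_mul_eq_prod (Hsm.map (𝓝 := lvlS S) (IndMod.pull (ESx S) ρ) 2)
    (fun q : ↥S => locOp q.1 ρ 2) (fun q : ↥S => locE S X q.1 2) (fun q : ↥S => invX (L q.1) X)
    (fun q x => Loc.locE_pull S q.1 ρ 2 x) (fun q y => Loc.invX_locOp (L q.1) ρ hbij y) hP
    (fun q y _ => Loc.locOp_iterate q.1 ρ hρ 2 y) (fun q => Loc.finite_tors hp (L q.1))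
    h4.inj h4.recip h4.exist ?_
  intro c hc
  obtain ⟨q, hq⟩ := hS
  obtain ⟨x₀⟩ := ‹Nonempty X›
  let ω₀ : LocOrb q X := Quotient.mk'' (ResSet.of x₀)
  have : Fintype (LocOrb q X) := Fintype.ofFinite _
  obtain ⟨y, hy, hyt⟩ := Loc.locInv_surj (L q) (Pi.single ω₀ c) (by
    funext ω
    by_cases h : ω = ω₀
    · subst h
      rw [Pi.smul_apply, Pi.single_eq_same, hc]
      rfl
    · rw [Pi.smul_apply, Pi.single_eq_of_ne h, smul_zero]
      rfl)
  refine ⟨⟨q, hq⟩, y, hy, ?_⟩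
  rw [Loc.invX_eq_sum_locInv, hyt, Finset.sum_pi_single']
  simp

end Fermat.Agent.S56.EC.Base
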